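import Fermat.Agent.S38T.IA.Hecke.Spec4
import Fermat.Agent.S38.H31.MinZeroOdd

/-!
# Row S59, cell (B2) HECKE-T: the leaf IA-MINZERO-T  (helper31)

`iaMinZeroT_h31 : Hecke.IAMinZeroStatement_T` VERBATIM (`S38T/IA/Hecke/Spec4.lean`, helper3):
for every odd prime `p` and both types `ty` at `p`, under (MIN) at the levels
`ribetLevelT p ty Smin (Piv.erase q)` the localisation of `X_{K'}(𝒪)`,
`K' = Γ₀(ribetLevelT p ty Smin (Piv.erase q)) ∩ Γ_H(Q)`, is zero.

It is `minZero_gen_odd31` (`S38/H31/MinZeroOdd.lean`: `H59.minZero_gen59` without `5 ≤ p`, the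
case `p = 3` by an auxiliary prime `r ≡ 2 mod 3`) at the base level
`N₀ := ribetLevelT p ty Smin (Piv.erase q)`; the hypotheses `3 ≤ p` and `IsPTypeAt p ρbar ty` are
not used.
-/

set_option autoImplicit false
set_option linter.style.haveILetI false

open Polynomial IsLocalRing CongruenceSubgroup
open scoped MatrixGroups

namespace Fermat.Agent.S38.H31

open Fermat.Agent.S59.Arch Fermat.Agent.S59.TW.H959 Fermat.Agent.S59.TW Fermat.Agent.S59.H765
open Fermat.Agent.S59.TW.H653 Fermat.Agent.S59.TW.Aut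
open Fermat.Agent.S38.IA Fermat.Agent.S38.IA.Hecke
open Fermat.Agent.S38.H59
open CuspForm

/-- `ribetLevelT` is nonzero. -/
theorem ribetLevelT_ne_zero31 {p : ℕ} (hp : p.Prime) (ty : PType) {Smin Piv : Finset ℕ}
    (hSmin : ∀ q ∈ Smin, q.Prime) (hPivP : ∀ q ∈ Piv, q.Prime) :
    ribetLevelT p ty Smin Piv ≠ 0 := by
  have h0 : ribetLevel p Smin Piv ≠ 0 := ribetLevel_ne_zero59 hSmin hPivP
  cases ty
  · exact h0
  · exact Nat.mul_ne_zero h0 hp.ne_zero
  · exact Nat.mul_ne_zero h0 hp.ne_zero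

/-- The prime divisors of `ribetLevelT` lie in `Smin ∪ Piv` (`p ∈ Smin`). -/
theorem mem_of_dvd_ribetLevelT31 {p : ℕ} (ty : PType) {Smin Piv : Finset ℕ}
    (hSmin : ∀ q ∈ Smin, q.Prime) (hPivP : ∀ q ∈ Piv, q.Prime) (hpSmin : p ∈ Smin)
    {l : ℕ} (hl : l.Prime) (hdvd : l ∣ ribetLevelT p ty Smin Piv) : l ∈ Smin ∪ Piv := by
  have hp : p.Prime := hSmin p hpSmin
  have hmul : l ∣ ribetLevel p Smin Piv * p → l ∈ Smin ∪ Piv := by
    intro h1
    rcases (Nat.Prime.dvd_mul hl).mp h1 with h2 | h2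
    · exact mem_of_dvd_ribetLevel59 hSmin hPivP hl h2
    · have : l = p := (Nat.prime_dvd_prime_iff_eq hl hp).mp h2
      exact Finset.mem_union_left _ (this ▸ hpSmin)
  cases ty
  · exact mem_of_dvd_ribetLevel59 hSmin hPivP hl hdvd
  · exact hmul hdvd
  · exact hmul hdvd

/-- **IA-MINZERO-T** (leaf of cell (B2) HECKE-T of row S59), VERBATIM: every odd `p`, both types
at `p`. -/
theorem iaMinZeroT_h31 : IAMinZeroStatement_T := by
  intro p _ _ 𝒪 _ _ _ _ _ _ ρbar Smin h ty _ Piv hPiv hmin n r qv hq _ PQ α hα q hqP V' hV'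
  have hp : p.Prime := Fact.out
  have hPivP : ∀ q' ∈ Piv, q'.Prime := fun q' hq' => (hPiv q' hq').1
  have hPivP' : ∀ q' ∈ Piv.erase q, q'.Prime := fun q' hq' => hPivP q' (Finset.mem_of_mem_erase hq')
  have hqvP : ∀ j, (qv j).Prime := fun j => (hq.2.1 j).1
  have hSigP : ∀ q' ∈ Smin ∪ Piv ∪ Finset.univ.image qv, q'.Prime := by
    intro q' hq'
    rcases Finset.mem_union.mp hq' with h1 | h1
    · rcases Finset.mem_union.mp h1 with h2 | h2
      · exact h.hSmin q' h2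
      · exact hPivP q' h2
    · obtain ⟨j, -, rfl⟩ := Finset.mem_image.mp h1
      exact hqvP j
  have hsub : Smin ⊆ Smin ∪ Piv ∪ Finset.univ.image qv := fun x hx =>
    Finset.mem_union_left _ (Finset.mem_union_left _ hx)
  have hLS : ∀ q' : ℕ, q'.Prime → q' ∣ ribetLevelT p ty Smin (Piv.erase q) → q' ∈ Smin ∪ Piv := by
    intro q' hq' hdvd
    rcases Finset.mem_union.mp
      (mem_of_dvd_ribetLevelT31 ty h.hSmin hPivP' h.hpSmin hq' hdvd) with h1 | h1
    · exact Finset.mem_union_left _ h1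
    · exact Finset.mem_union_right _ (Finset.mem_of_mem_erase h1)
  exact minZero_gen_odd31 p 𝒪 ρbar Smin h (ribetLevelT p ty Smin (Piv.erase q))
    (ribetLevelT_ne_zero31 hp ty h.hSmin hPivP') (Smin ∪ Piv ∪ Finset.univ.image qv) hSigP hsub
    (fun q' hq' hdvd => Finset.mem_union_left _ (hLS q' hq' hdvd))
    (hmin q hqP _) ty PQ qv hq.1 hqvP
    (fun j => Finset.mem_union_right _ (Finset.mem_image_of_mem qv (Finset.mem_univ j)))
    (fun j hdvd => (hq.2.1 j).2.1 (hLS (qv j) (hqvP j) hdvd))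
    α (fun j => isUnit_sq_sub_one59 p 𝒪 ρbar h.hdet (Smin ∪ Piv)
      (Finset.mem_union_left _ h.hpSmin) n r qv hq α hα j)
    V' hV'

end Fermat.Agent.S38.H31
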